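import Fermat.Agent.JH.Lift

/-!
# S25, block K: smoothness from infinitesimal lifting
-/

set_option autoImplicit false

noncomputable section

universe u

open CategoryTheory CategoryTheory.Limits Opposite AlgebraicGeometry NeronModelInfra

namespace Fermat.Agent.JSm

open Fermat.Agent.JPC Fermat.Agent.JH

/-- `Spec (B/I) → Spec B` is surjective if `I` is square zero. -/
theorem surjective_comap_mk {B : Type u} [CommRing B] (I : Ideal B) (hI : I ^ 2 = ⊥)
    (q : Spec (CommRingCat.of B)) :
    ∃ q' : Spec (CommRingCat.of (B ⧸ I)),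
      Spec.map (CommRingCat.ofHom (Ideal.Quotient.mk I)) q' = q := by
  have h1 : (show PrimeSpectrum B from q) ∈
      Set.range (PrimeSpectrum.comap (Ideal.Quotient.mk I)) := by
    rw [range_comap_of_surjective _ _ Ideal.Quotient.mk_surjective,
      PrimeSpectrum.mem_zeroLocus, Ideal.mk_ker, SetLike.coe_subset_coe]
    intro x hx
    have h2 : x ^ 2 ∈ I ^ 2 := Ideal.pow_mem_pow hx 2
    rw [hI, Ideal.mem_bot] at h2
    exact Ideal.IsPrime.mem_of_pow_mem (show PrimeSpectrum B from q).isPrime 2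
      (h2 ▸ (show PrimeSpectrum B from q).asIdeal.zero_mem)
  exact h1

variable {k : Type u} [Field k]

/-- an affine scheme over `k` with infinitesimal lifting is smooth. -/
theorem smooth_specMap {R : CommRingCat.{u}} (φ : CommRingCat.of k ⟶ R)
    [LocallyOfFiniteType (Spec.map φ)]
    (hlift : ∀ (B : Type u) [CommRing B] [Algebra k B] (I : Ideal B), I ^ 2 = ⊥ →
      ∀ g₀ : SchemeHomOver (sB k (B ⧸ I)) (Spec.map φ), ∃ g : SchemeHomOver (sB k B) (Spec.map φ),
        (sQuot (k := k) B I).1 ≫ g.1 = g₀.1) : Smooth (Spec.map φ) := by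
  rw [HasRingHomProperty.Spec_iff (P := @Smooth)]
  let _ : Algebra k R := φ.hom.toAlgebra
  have hft : φ.hom.FiniteType :=
    (HasRingHomProperty.Spec_iff (P := @LocallyOfFiniteType)).1 inferInstance
  have hft' : Algebra.FiniteType k R := hft
  have hfp : Algebra.FinitePresentation k R := Algebra.FinitePresentation.of_finiteType.1 hft'
  have hfs : Algebra.FormallySmooth k R := by
    refine Algebra.FormallySmooth.of_comp_surjective fun B _ _ I hI f => ?_
    let g₀ : SchemeHomOver (sB k (B ⧸ I)) (Spec.map φ) :=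
      ⟨Spec.map (CommRingCat.ofHom (f : R →+* B ⧸ I)), by
        unfold sB
        rw [← Spec.map_comp]
        congr 1
        apply CommRingCat.hom_ext
        exact f.comp_algebraMap⟩
    obtain ⟨g, hg⟩ := hlift B I hI g₀
    have h1 : φ ≫ Spec.preimage g.1 = CommRingCat.ofHom (algebraMap k B) := by
      apply Spec.map_injective
      rw [Spec.map_comp, Spec.map_preimage]
      exact g.2
    refine ⟨{ (Spec.preimage g.1).hom with
      commutes' := fun a => congrArg (fun ψ => ψ.hom a) h1 }, ?_⟩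
    have h2 : Spec.preimage g.1 ≫ CommRingCat.ofHom (Ideal.Quotient.mk I) =
        CommRingCat.ofHom (f : R →+* B ⧸ I) := by
      apply Spec.map_injective
      rw [Spec.map_comp, Spec.map_preimage]
      exact hg
    apply AlgHom.ext
    intro a
    exact congrArg (fun ψ => ψ.hom a) h2
  exact { formallySmooth := hfs, finitePresentation := hfp }

theorem smooth_comp {J : Scheme.{u}} (p : J ⟶ Spec (CommRingCat.of k))
    [LocallyOfFiniteType p]
    (hlift : ∀ (B : Type u) [CommRing B] [Algebra k B] (I : Ideal B), I ^ 2 = ⊥ →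
      ∀ g₀ : SchemeHomOver (sB k (B ⧸ I)) p, ∃ g : SchemeHomOver (sB k B) p,
        (sQuot (k := k) B I).1 ≫ g.1 = g₀.1)
    {R : CommRingCat.{u}} (j : Spec R ⟶ J) [IsOpenImmersion j] : Smooth (j ≫ p) := by
  have hq : j ≫ p = Spec.map (Spec.preimage (j ≫ p)) := (Spec.map_preimage (j ≫ p)).symm
  have hft : LocallyOfFiniteType (j ≫ p) := inferInstance
  have : LocallyOfFiniteType (Spec.map (Spec.preimage (j ≫ p))) := hq ▸ hft
  rw [hq]
  refine smooth_specMap _ fun B _ _ I hI g₀ => ?_
  let g₀' : SchemeHomOver (sB k (B ⧸ I)) p := ⟨g₀.1 ≫ j, by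
    rw [Category.assoc]
    exact (congrArg (g₀.1 ≫ ·) hq).trans g₀.2⟩
  obtain ⟨g, hg⟩ := hlift B I hI g₀'
  have hrange : Set.range g.1 ⊆ Set.range j := by
    rintro _ ⟨y, rfl⟩
    obtain ⟨y', hy'⟩ := surjective_comap_mk I hI y
    refine ⟨g₀.1 y', ?_⟩
    have h1 : ((sQuot (k := k) B I).1 ≫ g.1) y' = (g₀.1 ≫ j) y' := congrArg (fun f => f y') hg
    rw [Scheme.Hom.comp_apply, Scheme.Hom.comp_apply] at h1
    rw [← h1]
    exact congrArg g.1 hy'
  let G : Spec (CommRingCat.of B) ⟶ Spec R := IsOpenImmersion.lift j g.1 hrange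
  have hG : G ≫ j = g.1 := IsOpenImmersion.lift_fac j g.1 hrange
  refine ⟨⟨G, ?_⟩, ?_⟩
  · rw [← hq, ← Category.assoc, hG]
    exact g.2
  · rw [← cancel_mono j, Category.assoc]
    show (sQuot (k := k) B I).1 ≫ G ≫ j = _
    rw [hG]
    exact hg

/-- **smoothness from infinitesimal lifting.** -/
theorem smooth_of_lift {J : Scheme.{u}} (p : J ⟶ Spec (CommRingCat.of k))
    [LocallyOfFiniteType p]
    (hlift : ∀ (B : Type u) [CommRing B] [Algebra k B] (I : Ideal B), I ^ 2 = ⊥ →
      ∀ g₀ : SchemeHomOver (sB k (B ⧸ I)) p, ∃ g : SchemeHomOver (sB k B) p,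
        (sQuot (k := k) B I).1 ≫ g.1 = g₀.1) : Smooth p :=
  (IsZariskiLocalAtSource.iff_of_openCover (P := @Smooth) J.affineCover).2 fun i =>
    @smooth_comp k _ J p _ hlift _ (J.affineCover.f i) (J.affineCover.map_prop i)

variable {X : TwoChart k} {P : RelFun (Spec (CommRingCat.of k))}
  [∀ {T : Scheme.{u}} (t : T ⟶ Spec (CommRingCat.of k)), CommGroup (P.obj t)]

/-- the representing scheme is smooth. -/
theorem smooth_of_dict (D : Dict X P) (hK : LiftStmt X) {J : Scheme.{u}}
    (p : J ⟶ Spec (CommRingCat.of k)) [LocallyOfFiniteType p] (univ : P.obj p)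
    (hu : ∀ {T : Scheme.{u}} (t : T ⟶ Spec (CommRingCat.of k)) (h : P.obj t),
      ∃! g : SchemeHomOver t p, P.map g univ = h) : Smooth p :=
  smooth_of_lift p fun B _ _ I hI g₀ => exists_lift_hom D hK univ hu B I hI g₀

end Fermat.Agent.JSm

end
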