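import Fermat.Agent.JSm.Smooth
import Fermat.Agent.JKL.K4
import Fermat.Agent.JFin.Final

/-!
# S25, block K: `SmoothStmt`
-/

set_option autoImplicit false

noncomputable section

universe u

open CategoryTheory CategoryTheory.Limits AlgebraicGeometry NeronModelInfra

namespace Fermat.Agent.JSm

open Fermat.Agent.JPC Fermat.Agent.JH

/-- **block K**, final form. -/
theorem smoothStmt {k : Type u} [Field k] {C : Scheme.{u}} {c : C ⟶ Spec (CommRingCat.of k)}
    {ε : SchemeHomOver (𝟙 (Spec (CommRingCat.of k))) c} {X : TwoChart k}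
    (D : JH.Dict X (JC.P c ε)) : JFin.SmoothStmt c ε := by
  intro J p univ hu hft
  exact smooth_of_dict D (JKL.liftStmt X) p univ hu

end Fermat.Agent.JSm

end
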